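import Fermat.Agent.S19.C.Main
import Fermat.Agent.GAL.Igusa.Final

/-!
# S19 / C: `NeatContract` (the input of `S19/Top/Final.lean`).
-/

set_option autoImplicit false

namespace Fermat.Agent.S19

open AlgebraicCurve ModularCurve Fermat.Agent.Lib.RR Fermat.Agent.GAL Fermat.Agent.GAL.RED

theorem neatContract (ℓ M : ℕ) [Fact ℓ.Prime] [NeZero M] (h : ¬ ℓ ∣ M) (hneat : 4 ∣ M ∨ 9 ∣ M) :
    NeatContract ℓ M := by
  intro A hA
  have hℓ : ℓ.Prime := Fact.out
  have hchar := GAL.Hecke.charP_residueField A hℓ hA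
  have hM : ((M : ℕ) : IsLocalRing.ResidueField ↥A) ≠ 0 := by
    rw [Ne, CharP.cast_eq_zero_iff (IsLocalRing.ResidueField ↥A) ℓ]
    exact h
  have i0 : IsFF Qb (FN M) := GAL.Desc.isFF_FF_Kbar M
  have i5 := Igusa.isAlgClosed_residueField A
  have i4 := Igusa.isFF_E (IsLocalRing.ResidueField ↥A) M hM
  have hg : DR.Conc.GoodRed A M :=
    DR.Conc.goodRed_of_neat A M hM Igusa.cuspUpper Igusa.cuspLower hneat
  have hinv : (ℓ : Qb)⁻¹ ∉ A := by
    intro hinv
    have h1 : (ℓ : Qb) ∈ A.nonunits := hA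
    rw [ValuationSubring.mem_nonunits_iff_exists_mem_maximalIdeal] at h1
    obtain ⟨hmem, hmax⟩ := h1
    apply (IsLocalRing.mem_maximalIdeal _).mp hmax
    rw [isUnit_iff_exists_inv]
    refine ⟨⟨_, hinv⟩, Subtype.ext ?_⟩
    have h0 : (ℓ : Qb) ≠ 0 := by exact_mod_cast hℓ.ne_zero
    exact mul_inv_cancel₀ h0
  obtain ⟨r, hr⟩ := exists_galRed hM ℓ hinv hg
  exact ⟨i0, IsLocalRing.ResidueField ↥A, Igusa.E (IsLocalRing.ResidueField ↥A) M, inferInstance,
    inferInstance, inferInstance, i4, i5, DR.Conc.RM A M hM, r,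
    DR.Conc.gaussRedData'_A A M hM _ _, hr, hg⟩

end Fermat.Agent.S19
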