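import Fermat.Agent.GAL.RED.Main

/-!
# S19 / C, leaf C5: orders of polynomials `p(x)` in a function `x` (abstract function fields).
-/

set_option autoImplicit false

namespace Fermat.Agent.S19

open AlgebraicCurve Fermat.Agent.Lib.RR Fermat.Agent.GAL.RED Polynomial

variable {K F : Type*} [Field K] [Field F] [Algebra K F]

theorem OrdPoly_ne_zero_of_ord_ne (P : Place K F) {x : F} (hx : P.ord x ≠ 0) : x ≠ 0 := by
  rintro rfl
  exact hx (by simp)

theorem OrdPoly_ord_term_ge (P : Place K F) (x : F) (hx : P.ord x < 0) (a : K) {i d : ℕ}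
    (hid : i ≤ d) : (d : ℤ) * P.ord x ≤ P.ord (a • x ^ i) := by
  have hx0 : x ≠ 0 := OrdPoly_ne_zero_of_ord_ne P hx.ne
  have hd : (d : ℤ) * P.ord x ≤ (i : ℤ) * P.ord x := by
    have h1 : (i : ℤ) ≤ d := by exact_mod_cast hid
    nlinarith
  have hi : (i : ℤ) * P.ord x ≤ 0 := by
    have h1 : (0 : ℤ) ≤ i := Int.natCast_nonneg i
    nlinarith
  rcases eq_or_ne a 0 with rfl | ha
  · rw [zero_smul]
    have h0 : P.ord (0 : F) = 0 := by simp
    rw [h0]
    exact hd.trans hi
  · rw [Algebra.smul_def, P.ord_mul ((_root_.map_ne_zero _).mpr ha) (pow_ne_zero i hx0),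
      ord_algebraMap, ord_pow, zero_add]
    exact hd

theorem OrdPoly_ord_aeval_ge (P : Place K F) (x : F) (hx : P.ord x < 0) (q : K[X]) {d : ℕ}
    (hq : q.natDegree ≤ d) : (d : ℤ) * P.ord x ≤ P.ord (aeval x q) := by
  classical
  have hd0 : (d : ℤ) * P.ord x ≤ 0 := by
    have h1 : (0 : ℤ) ≤ d := Int.natCast_nonneg d
    nlinarith
  rw [aeval_eq_sum_range]
  have key : ∀ s : Finset ℕ, (∀ i ∈ s, i ≤ d) →
      (d : ℤ) * P.ord x ≤ P.ord (∑ i ∈ s, q.coeff i • x ^ i) := by
    intro s
    induction s using Finset.induction_on with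
    | empty =>
      intro _
      rw [Finset.sum_empty]
      have h0 : P.ord (0 : F) = 0 := by simp
      rw [h0]
      exact hd0
    | insert a s ha ih =>
      intro hs
      rw [Finset.sum_insert ha]
      exact Basic_ord_add_ge P hd0
        (OrdPoly_ord_term_ge P x hx _ (hs a (Finset.mem_insert_self a s)))
        (ih fun i hi => hs i (Finset.mem_insert_of_mem hi))
  refine key _ fun i hi => ?_
  have := Finset.mem_range.mp hi
  omega

/-- at a pole of `x` the leading term dominates. -/
theorem ord_aeval_of_ord_neg (P : Place K F) (x : F) (hx : P.ord x < 0) (p : K[X]) (hp : p ≠ 0) :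
    P.ord (aeval x p) = p.natDegree * P.ord x := by
  have hx0 : x ≠ 0 := OrdPoly_ne_zero_of_ord_ne P hx.ne
  have hlc : p.leadingCoeff ≠ 0 := leadingCoeff_ne_zero.mpr hp
  have hf0 : algebraMap K F p.leadingCoeff * x ^ p.natDegree ≠ 0 :=
    mul_ne_zero ((_root_.map_ne_zero _).mpr hlc) (pow_ne_zero _ hx0)
  have hford : P.ord (algebraMap K F p.leadingCoeff * x ^ p.natDegree) =
      p.natDegree * P.ord x := by
    rw [P.ord_mul ((_root_.map_ne_zero _).mpr hlc) (pow_ne_zero _ hx0), ord_algebraMap, ord_pow, zero_add]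
  have hdec : aeval x p = algebraMap K F p.leadingCoeff * x ^ p.natDegree +
      aeval x p.eraseLead := by
    conv_lhs => rw [← eraseLead_add_monomial_natDegree_leadingCoeff p]
    rw [map_add, aeval_monomial, add_comm]
  rcases Nat.eq_zero_or_pos p.natDegree with hn | hn
  · have h1 : p = C (p.coeff 0) := eq_C_of_natDegree_eq_zero hn
    rw [hn, h1, aeval_C, ord_algebraMap]
    simp
  · rw [hdec]
    rcases eq_or_ne (aeval x p.eraseLead) 0 with h0 | h0
    · rw [h0, add_zero, hford]
    · rw [ord_add_eq_of_lt P hf0 h0, hford]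
      rw [hford]
      have h1 := OrdPoly_ord_aeval_ge P x hx p.eraseLead (eraseLead_natDegree_le p)
      have h2 : ((p.natDegree - 1 : ℕ) : ℤ) = (p.natDegree : ℤ) - 1 := by
        rw [Nat.cast_sub hn]
        simp
      rw [h2] at h1
      nlinarith

/-- outside the poles of `x`, `p(x)` is regular. -/
theorem ord_aeval_nonneg (P : Place K F) (x : F) (hx : 0 ≤ P.ord x) (p : K[X]) :
    0 ≤ P.ord (aeval x p) := by
  induction p using Polynomial.induction_on' with
  | add p q hp hq =>
    rw [map_add]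
    exact Basic_ord_add_ge P le_rfl hp hq
  | monomial n a =>
    rw [aeval_monomial]
    refine Basic_ord_mul_nonneg P (ord_algebraMap P a).ge ?_
    rw [ord_pow]
    positivity

/-- if `x(P) = t` and `p(t) ≠ 0` then `p(x)` is a unit at `P`:
`p = p(t) + (X - t) q` (`Polynomial.mul_divByMonic_eq_iff_isRoot` / `X_sub_C_mul_divByMonic_eq_sub_modByMonic`/
`Polynomial.sub_dvd_eval_sub`). -/
theorem ord_aeval_eq_zero (P : Place K F) (x : F) (t : K) (hx : 0 < P.ord (x - algebraMap K F t))
    (p : K[X]) (hp : p.eval t ≠ 0) : P.ord (aeval x p) = 0 := by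
  have hx0 : 0 ≤ P.ord x := by
    have h1 : x = (x - algebraMap K F t) + algebraMap K F t := by ring
    rw [h1]
    exact Basic_ord_add_ge P le_rfl hx.le (ord_algebraMap P t).ge
  have hdec : aeval x p = algebraMap K F (p.eval t) +
      (x - algebraMap K F t) * aeval x (p /ₘ (X - C t)) := by
    conv_lhs => rw [← modByMonic_add_div p (X - C t), modByMonic_X_sub_C_eq_C_eval]
    simp
  have hc0 : algebraMap K F (p.eval t) ≠ 0 := (_root_.map_ne_zero _).mpr hp
  rw [hdec]
  rcases eq_or_ne ((x - algebraMap K F t) * aeval x (p /ₘ (X - C t))) 0 with h0 | h0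
  · rw [h0, add_zero, ord_algebraMap]
  · rw [ord_add_eq_of_lt P hc0 h0, ord_algebraMap]
    rw [ord_algebraMap, P.ord_mul (left_ne_zero_of_mul h0) (right_ne_zero_of_mul h0)]
    have := ord_aeval_nonneg P x hx0 (p /ₘ (X - C t))
    omega

theorem poleDiv_aeval [HasPrincipalDivisors K F] (x : F) (p : K[X]) (hp : p ≠ 0) :
    poleDiv (K := K) (aeval x p) = p.natDegree • poleDiv (K := K) x := by
  ext P
  rw [Finsupp.smul_apply, poleDiv_apply, poleDiv_apply, nsmul_eq_mul]
  rcases lt_or_ge (P.ord x) 0 with hx | hx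
  · rw [ord_aeval_of_ord_neg P x hx p hp, max_eq_left (by omega : (0 : ℤ) ≤ -P.ord x),
      max_eq_left]
    · ring
    · have h1 : (0 : ℤ) ≤ p.natDegree := Int.natCast_nonneg _
      nlinarith
  · have h1 := ord_aeval_nonneg P x hx p
    rw [max_eq_right (by omega), max_eq_right (by omega), mul_zero]

end Fermat.Agent.S19
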