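import Mathlib

/-!
# S19 / C, leaves C2, C3 (MATHLIB ONLY): two lemmas on polynomials.
-/

set_option autoImplicit false

namespace Fermat.Agent.S19

open Polynomial

theorem Poly_aeval_eq_eval₂ {k : Type*} [CommRing k] [Algebra ℤ k] (t : k) (f : ℤ[X]) :
    aeval t f = eval₂ (Int.castRingHom k) t f := by
  rw [aeval_def, Subsingleton.elim (algebraMap ℤ k) (Int.castRingHom k)]

/-- C2a. The residue field of a valuation ring of `ℚ̄` is algebraic over the prime field, in elementary form: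
every element is a root of an integral polynomial which is non zero modulo `ℓ`.
PROOF. `t = residue a`, `a ∈ A` algebraic over `ℚ`, hence over `ℤ` (`IsFractionRing.isAlgebraic_iff ℤ ℚ _`);
take `f ≠ 0` in `ℤ[X]` with `aeval a f = 0`, replace `f` by `f.primPart` (`Polynomial.eq_C_content_mul_primPart`,
`aeval_primPart_eq_zero`); `primPart` is not `0` modulo `ℓ` (otherwise `C ℓ ∣ primPart`,
`Polynomial.IsPrimitive`); apply `residue`. -/
theorem exists_int_poly_residue (A : ValuationSubring (AlgebraicClosure ℚ)) (ℓ : ℕ) [Fact ℓ.Prime]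
    (t : IsLocalRing.ResidueField ↥A) :
    ∃ f : ℤ[X], f.map (Int.castRingHom (ZMod ℓ)) ≠ 0 ∧ aeval t f = 0 := by
  obtain ⟨a, rfl⟩ := IsLocalRing.residue_surjective t
  have h1 : IsAlgebraic ℚ (a : AlgebraicClosure ℚ) := (AlgebraicClosure.isAlgebraic ℚ).isAlgebraic _
  rw [← IsFractionRing.isAlgebraic_iff ℤ ℚ] at h1
  obtain ⟨f, hf0, hf⟩ := h1
  have h2 : aeval (a : AlgebraicClosure ℚ) f.primPart = 0 := aeval_primPart_eq_zero hf0 hf
  refine ⟨f.primPart, ?_, ?_⟩
  · intro h0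
    have h3 : C (ℓ : ℤ) ∣ f.primPart := by
      rw [C_dvd_iff_dvd_coeff]
      intro i
      have h4 := congrArg (fun p => p.coeff i) h0
      simp only [coeff_map, coeff_zero, eq_intCast] at h4
      exact (ZMod.intCast_zmod_eq_zero_iff_dvd _ _).1 h4
    have h5 := f.isPrimitive_primPart _ h3
    rw [Int.isUnit_iff] at h5
    have h6 := (Fact.out : ℓ.Prime).two_le
    omega
  · have h3 : aeval a f.primPart = 0 := by
      apply Subtype.val_injective
      rw [Poly_aeval_eq_eval₂] at h2 ⊢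
      have h4 := hom_eval₂ f.primPart (Int.castRingHom ↥A) A.subtype a
      rw [Subsingleton.elim (A.subtype.comp (Int.castRingHom ↥A))
        (Int.castRingHom (AlgebraicClosure ℚ))] at h4
      exact h4.trans h2
    rw [Poly_aeval_eq_eval₂] at h3 ⊢
    have h4 := hom_eval₂ f.primPart (Int.castRingHom ↥A) (IsLocalRing.residue ↥A) a
    rw [Subsingleton.elim ((IsLocalRing.residue ↥A).comp (Int.castRingHom ↥A))
        (Int.castRingHom (IsLocalRing.ResidueField ↥A)), h3, map_zero] at h4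
    exact h4.symm

/-- C2. Monic integral polynomials of large degree without zeros on a given finite subset of the residue field.
PROOF. `(ℓ : k) = 0` (as `ℓ ∈ A` is not a unit), so `k` is a `ZMod ℓ`-algebra (`ZMod.algebra` after
`CharP k ℓ`, or just use the ring hom `ZMod.castHom`/`ZMod.lift`), and `aeval t f = eval₂ _ t (f.map _)`.
Let `m = ∏_{t ∈ T} f_t mod ℓ ∈ (ZMod ℓ)[X]`, `m ≠ 0`, normalise it to be monic
(`m * C m.leadingCoeff⁻¹`, `Polynomial.monic_mul_leadingCoeff_inv`), `Pbar = X^(n+1) * m + 1`: monic of degree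
`≥ n + 1`, `Pbar(t) = 1` for `t ∈ T`.  Lift `Pbar` to a monic `P ∈ ℤ[X]` of the same degree
(`Polynomial.lifts_and_natDegree_eq_and_monic`, `Polynomial.lifts_iff_coeff_lifts` / `map_surjective`,
`ZMod.intCast_surjective`). -/
theorem exists_monic_avoid (A : ValuationSubring (AlgebraicClosure ℚ)) (ℓ : ℕ) [Fact ℓ.Prime]
    (hℓ : (ℓ : AlgebraicClosure ℚ)⁻¹ ∉ A) (T : Finset (IsLocalRing.ResidueField ↥A)) (n : ℕ) :
    ∃ P : ℤ[X], P.Monic ∧ n ≤ P.natDegree ∧ ∀ t ∈ T, aeval t P ≠ 0 := by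
  classical
  have hℓ0 : ((ℓ : ℕ) : IsLocalRing.ResidueField ↥A) = 0 := by
    have h1 : (IsLocalRing.residue ↥A) ((ℓ : ℕ) : ↥A) = 0 := by
      rw [IsLocalRing.residue_eq_zero_iff, IsLocalRing.mem_maximalIdeal, mem_nonunits_iff]
      intro hu
      obtain ⟨u, hu⟩ := hu
      apply hℓ
      have h2 : ((u⁻¹ : (↥A)ˣ) : AlgebraicClosure ℚ) = (ℓ : AlgebraicClosure ℚ)⁻¹ := by
        have h3 : ((u : ↥A) : AlgebraicClosure ℚ) * ((u⁻¹ : (↥A)ˣ) : ↥A) = 1 := by
          rw [← A.coe_mul, Units.mul_inv]; rfl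
        rw [hu] at h3
        exact eq_inv_of_mul_eq_one_right (by simpa using h3)
      rw [← h2]
      exact ((u⁻¹ : (↥A)ˣ) : ↥A).2
    simpa using h1
  have : CharP (IsLocalRing.ResidueField ↥A) ℓ :=
    (CharP.charP_iff_prime_eq_zero (Fact.out : ℓ.Prime)).2 hℓ0
  let φ : ZMod ℓ →+* IsLocalRing.ResidueField ↥A := ZMod.castHom (dvd_refl ℓ) _
  have hφ : ∀ (t : IsLocalRing.ResidueField ↥A) (f : ℤ[X]),
      aeval t f = eval₂ φ t (f.map (Int.castRingHom (ZMod ℓ))) := by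
    intro t f
    rw [Poly_aeval_eq_eval₂, eval₂_map]
    congr 1
    exact Subsingleton.elim _ _
  choose f hf1 hf2 using exists_int_poly_residue A ℓ
  set m : (ZMod ℓ)[X] := ∏ t ∈ T, (f t).map (Int.castRingHom (ZMod ℓ)) with hm
  have hm0 : m ≠ 0 := Finset.prod_ne_zero_iff.2 fun t _ => hf1 t
  have hmon : (m * C m.leadingCoeff⁻¹).Monic := monic_mul_leadingCoeff_inv hm0
  have hmon2 : (X ^ (n + 1) * (m * C m.leadingCoeff⁻¹)).Monic := (monic_X_pow _).mul hmon
  have hdeg2 : (X ^ (n + 1) * (m * C m.leadingCoeff⁻¹)).natDegree =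
      n + 1 + (m * C m.leadingCoeff⁻¹).natDegree := by
    rw [(monic_X_pow _).natDegree_mul hmon, natDegree_X_pow]
  have hlt : (1 : (ZMod ℓ)[X]).degree < (X ^ (n + 1) * (m * C m.leadingCoeff⁻¹)).degree := by
    rw [degree_one, degree_eq_natDegree hmon2.ne_zero, hdeg2]
    exact_mod_cast (by omega : 0 < n + 1 + (m * C m.leadingCoeff⁻¹).natDegree)
  have hmon3 : (X ^ (n + 1) * (m * C m.leadingCoeff⁻¹) + 1).Monic := hmon2.add_of_left hlt
  have hdeg3 : (X ^ (n + 1) * (m * C m.leadingCoeff⁻¹) + 1).natDegree =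
      n + 1 + (m * C m.leadingCoeff⁻¹).natDegree := by
    rw [natDegree_add_eq_left_of_degree_lt hlt, hdeg2]
  have hl : (X ^ (n + 1) * (m * C m.leadingCoeff⁻¹) + 1) ∈ lifts (Int.castRingHom (ZMod ℓ)) := by
    rw [mem_lifts]
    exact map_surjective _ (ZMod.intCast_surjective) _
  obtain ⟨P, hP1, hP2, hP3⟩ := lifts_and_natDegree_eq_and_monic hl hmon3
  refine ⟨P, hP3, by rw [hP2, hdeg3]; omega, fun t ht => ?_⟩
  rw [hφ, hP1, eval₂_add, eval₂_mul, eval₂_mul, hm, eval₂_finsetProd,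
    Finset.prod_eq_zero ht (by rw [← hφ, hf2]), zero_mul, mul_zero, zero_add, eval₂_one]
  exact one_ne_zero

theorem Poly_exists_dvd_map (S₀ : (AlgebraicClosure ℚ)[X]) (hS₀ : S₀ ≠ 0) :
    ∃ S₁ : ℚ[X], S₁ ≠ 0 ∧ S₀ ∣ S₁.map (algebraMap ℚ (AlgebraicClosure ℚ)) := by
  have hsp : S₀.Splits := IsAlgClosed.splits S₀
  refine ⟨(S₀.roots.map fun a => minpoly ℚ a).prod, ?_, ?_⟩
  · apply Multiset.prod_ne_zero
    intro h0
    obtain ⟨a, -, ha⟩ := Multiset.mem_map.1 h0
    exact minpoly.ne_zero ((AlgebraicClosure.isAlgebraic ℚ).isAlgebraic a).isIntegral ha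
  · rw [Polynomial.map_multiset_prod, Multiset.map_map]
    conv_lhs => rw [hsp.eq_prod_roots]
    have hu : IsUnit (C S₀.leadingCoeff) :=
      Polynomial.isUnit_C.2 (IsUnit.mk0 _ (leadingCoeff_ne_zero.2 hS₀))
    rw [hu.mul_left_dvd]
    refine Multiset.prod_dvd_prod_of_dvd _ _ fun a _ => ?_
    rw [Function.comp_apply, dvd_iff_isRoot, IsRoot.def, eval_map_algebraMap, minpoly.aeval]

/-- C3. Every non zero polynomial over `ℚ̄` divides a polynomial with rational coefficients which is primitive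
with respect to `A`.
PROOF. (1) `S₀ ∣ S₁.map _` with `S₁ ∈ ℚ[X]`, `S₁ ≠ 0`: `ℚ̄[X]` is algebraic (integral) over `ℚ[X]` (via
`Polynomial.mapRingHom (algebraMap ℚ ℚ̄)`; e.g. `Polynomial.isIntegral...`/`IsIntegral.map`; every coefficient
`C a` is integral and `X` is in the image), `IsAlgebraic.exists_nonzero_dvd`.  Alternative: `S₀` splits,
`S₀ = c ∏ (X - a_i)` and `X - a_i ∣ (minpoly ℚ a_i).map _` (`Polynomial.dvd_iff_isRoot`,
`minpoly.aeval`), so `S₁ = ∏ minpoly ℚ a_i` (this is probably the shortest: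
`IsAlgClosed.splits`, `Polynomial.eq_prod_roots_of_splits_id`/`Splits.eq_prod_roots`, `Multiset.prod_dvd_prod_of_dvd`...).
(2) normalisation: `A₀ = A.comap (algebraMap ℚ ℚ̄)` is a valuation subring of `ℚ`; among the finitely many non zero
coefficients of `S₁` choose one, `c`, of maximal valuation `A₀.valuation`; `S = C c⁻¹ * S₁`. -/
theorem exists_rat_multiple (A : ValuationSubring (AlgebraicClosure ℚ)) (S₀ : (AlgebraicClosure ℚ)[X])
    (hS₀ : S₀ ≠ 0) :
    ∃ S : ℚ[X], S₀ ∣ S.map (algebraMap ℚ (AlgebraicClosure ℚ)) ∧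
      (∀ i, algebraMap ℚ (AlgebraicClosure ℚ) (S.coeff i) ∈ A) ∧ ∃ i, S.coeff i = 1 := by
  obtain ⟨S₁, hS₁, hdvd⟩ := Poly_exists_dvd_map S₀ hS₀
  obtain ⟨i₀, hi₀, hmax⟩ := Finset.exists_max_image S₁.support
    (fun i => A.valuation (algebraMap ℚ (AlgebraicClosure ℚ) (S₁.coeff i)))
    (nonempty_support_iff.2 hS₁)
  have hc : S₁.coeff i₀ ≠ 0 := mem_support_iff.1 hi₀
  refine ⟨C (S₁.coeff i₀)⁻¹ * S₁, ?_, fun i => ?_, i₀, ?_⟩
  · rw [Polynomial.map_mul]
    exact hdvd.mul_left _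
  · rw [coeff_C_mul]
    by_cases hi : i ∈ S₁.support
    · rw [← A.valuation_le_one_iff, map_mul, map_mul, map_inv₀, map_inv₀]
      have hpos : 0 < A.valuation (algebraMap ℚ (AlgebraicClosure ℚ) (S₁.coeff i₀)) := by
        rw [zero_lt_iff, Ne, map_eq_zero, map_eq_zero]
        exact hc
      rw [inv_mul_le_one₀ hpos]
      exact hmax i hi
    · rw [notMem_support_iff.1 hi, mul_zero, map_zero]
      exact A.zero_mem
  · rw [coeff_C_mul, inv_mul_cancel₀ hc]

end Fermat.Agent.S19
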