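import Fermat.Agent.S19.C.Basic
import Fermat.Agent.S19.C.Poly
import Fermat.Agent.S19.C.OrdPoly

/-!
# S19 / C, leaves C10, C11: the field `aux` of `GalRed`: `𝔄 = ` divisor of zeros of `P(j)`, `P ∈ ℤ[X]` monic.
-/

set_option autoImplicit false

namespace Fermat.Agent.S19

open AlgebraicCurve ModularCurve Fermat.Agent.Lib.RR Fermat.Agent.GAL Fermat.Agent.GAL.RED
  Fermat.Agent.GAL.Gauss Fermat.Agent.S24 Fermat.Agent.DR.Conc Polynomial

/-- C10a. reduction of integral polynomials in an integral element.  (`R.res` is a ring hom `O → Fb`;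
`aeval x P = ((aeval (⟨x, hx⟩ : R.O) P : R.O) : F)`; `Polynomial.induction_on` is also fine, with
`RedData.red_add`, `RedData.red_mul`, `GRed.natCast`….) -/
theorem red_aeval_int {K F k Fb : Type*} [Field K] [Field F] [Algebra K F] [Field k] [Field Fb]
    [Algebra k Fb] (R : RedData K F k Fb) {x : F} (hx : x ∈ R.O) (P : ℤ[X]) :
    aeval x P ∈ R.O ∧ R.red (aeval x P) = aeval (R.red x) P := by
  have h1 : aeval x P = ((aeval (⟨x, hx⟩ : R.O) P : R.O) : F) :=
    aeval_algHom_apply (R.O.subtype.toIntAlgHom) (⟨x, hx⟩ : R.O) P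
  have h2 : aeval x P ∈ R.O := by
    rw [h1]
    exact (aeval (⟨x, hx⟩ : R.O) P : R.O).2
  refine ⟨h2, ?_⟩
  have h3 : (⟨aeval x P, h2⟩ : R.O) = aeval (⟨x, hx⟩ : R.O) P := Subtype.ext h1
  rw [R.red_of_mem h2, R.red_of_mem hx, h3]
  exact (aeval_algHom_apply (R.res.toIntAlgHom) (⟨x, hx⟩ : R.O) P).symm

/-- C10b. the polar divisor is equivariant (`S37.divOf_smul`, or `SemilinearAut.divisor_smul_apply` and
`SemilinearAut.ord_smul`). -/
theorem smul_poleDiv {K F : Type*} [Field K] [Field F] [Algebra K F] [HasPrincipalDivisors K F]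
    (g : SemilinearAut K F) (y : F) : g • poleDiv (K := K) y = poleDiv (K := K) (g • y) := by
  ext w
  rw [SemilinearAut.divisor_smul_apply, poleDiv_apply, poleDiv_apply]
  have h := SemilinearAut.ord_smul g (g⁻¹ • w) y
  rw [smul_inv_smul] at h
  rw [h]

/-- the polar divisor of a monic integral polynomial in `x`. -/
theorem AuxDiv_poleDiv_aeval_int {K F : Type*} [Field K] [Field F] [Algebra K F]
    [HasPrincipalDivisors K F] (x : F) (P : ℤ[X]) (hP : P.Monic) :
    poleDiv (K := K) (aeval x P) = P.natDegree • poleDiv (K := K) x := by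
  have h1 : aeval x P = aeval x (P.map (algebraMap ℤ K)) := (aeval_map_algebraMap K x P).symm
  rw [h1, poleDiv_aeval x _ (hP.map _).ne_zero, hP.natDegree_map]

/-- a monic integral polynomial in a transcendental element does not vanish. -/
theorem AuxDiv_aeval_int_ne_zero {K F : Type*} [Field K] [Field F] [Algebra K F] {x : F}
    (hx : Transcendental K x) (P : ℤ[X]) (hP : P.Monic) : aeval x P ≠ 0 := by
  have h1 : aeval x P = aeval x (P.map (algebraMap ℤ K)) := (aeval_map_algebraMap K x P).symm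
  rw [h1]
  intro h0
  exact (hP.map _).ne_zero (transcendental_iff.1 hx _ h0)

variable {A : ValuationSubring Kbar} {M : ℕ} [NeZero M]

/-- C10c. `r_*` maps the zeros of `P(j)` to the zeros of `P(j̄)` (no cancellation).
PROOF. `u = aeval (jF M) P`, `red u = aeval j̄ P` (C10a, `RM_red_jF`; `jF M ∈ O` since its reduction is `≠ 0`).
`aeval x P = aeval x (P.map (Int.castRingHom K))` (`Polynomial.aeval_map_algebraMap`), monic of the same degree
(`Polynomial.Monic.map`, `Monic.natDegree_map`).  `poleDiv_aeval` on both sides, `Level_degree_poleDiv_jF`,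
`Level_degree_poleDiv_jb`: both polar divisors have degree `natDegree P * dedekindPsi M`.
`red u ≠ 0`: `Igusa.transcendental_jb`.  Conclude by `DR.Conc.Level_map_poleDiv`. -/
theorem map_zeros_aeval_jF (hM : ((M : ℕ) : IsLocalRing.ResidueField ↥A) ≠ 0) [Lib.RR.IsFF Kbar (FN M)]
    [IsAlgClosed (IsLocalRing.ResidueField ↥A)]
    [Lib.RR.IsFF (IsLocalRing.ResidueField ↥A) (Igusa.E (IsLocalRing.ResidueField ↥A) M)]
    (r : Place Kbar (FN M) →
      Place (IsLocalRing.ResidueField ↥A) (Igusa.E (IsLocalRing.ResidueField ↥A) M))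
    (hr : IsRedMap (RM A M hM) r) (P : ℤ[X]) (hP : P.Monic) :
    Finsupp.mapDomain r (poleDiv (K := Kbar) (aeval (jF M) P)⁻¹) =
      poleDiv (K := IsLocalRing.ResidueField ↥A)
        (aeval (Igusa.jb (IsLocalRing.ResidueField ↥A) M) P)⁻¹ := by
  have hred := RM_red_jF A M hM
  have htr := Igusa.transcendental_jb (IsLocalRing.ResidueField ↥A) M
  have hne0 : (RM A M hM).red (jF M) ≠ 0 := by
    rw [hred]
    intro h0
    exact htr (h0 ▸ isAlgebraic_zero)
  have hx : jF M ∈ (RM A M hM).O := (RM A M hM).mem_of_red_ne_zero hne0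
  have hu := (red_aeval_int (RM A M hM) hx P).2
  rw [hred] at hu
  have hne : (RM A M hM).red (aeval (jF M) P) ≠ 0 := by
    rw [hu]
    exact AuxDiv_aeval_int_ne_zero htr P hP
  have h := (Level_map_poleDiv hr hne (by
    rw [hu, AuxDiv_poleDiv_aeval_int _ P hP, AuxDiv_poleDiv_aeval_int _ P hP, map_nsmul,
      map_nsmul, Level_degree_poleDiv_jF, Level_degree_poleDiv_jb A M hM])).2
  rwa [hu] at h

/-- C10d. the degree of the divisor of zeros. -/
theorem degree_zeros_aeval_jF [Lib.RR.IsFF Kbar (FN M)] (P : ℤ[X]) (hP : P.Monic) :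
    Divisor.degree (poleDiv (K := Kbar) (aeval (jF M) P)⁻¹) = P.natDegree * dedekindPsi M := by
  rw [Level_degree_poleDiv_inv, AuxDiv_poleDiv_aeval_int _ P hP, map_nsmul,
    Level_degree_poleDiv_jF, nsmul_eq_mul]

/-- C11. **The field `aux`.**
PROOF. For `z ∈ Z` with `0 ≤ z.ord j̄` choose `t_z : k` with `0 < z.ord (j̄ - t_z)` (`k` algebraically closed: the residue
field of `z` is `k`); `T` = the set of the `t_z`.  `P` from `exists_monic_avoid A ℓ hℓ T n`.
`𝔄 = poleDiv (aeval (jF M) P)⁻¹`: effective (`Level_poleDiv_nonneg`), of degree `natDegree P * ψ(M) ≥ n`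
(`DegreeAlpha.dedekindPsi_pos`), invariant (C10b, `smul_inv''`, `rhoM_smul_aeval_jF_int`).  If `P₀ ∈ supp 𝔄` then
`0 < 𝔄 P₀ ≤ (r_* 𝔄) (r P₀)` (`RED.Disc_le_mapDomain_apply`) `= poleDiv (ū⁻¹) (r P₀)` (C10c), so
`0 < (r P₀).ord ū`, `ū = aeval j̄ P`.  If `r P₀ = z ∈ Z`: either `z.ord j̄ < 0` and `z.ord ū = deg P * z.ord j̄ ≤ 0`
(`ord_aeval_of_ord_neg`), or `z.ord ū = 0` by `ord_aeval_eq_zero` (`eval t_z (P.map _) = aeval t_z P ≠ 0`). -/
theorem aux_modular (hM : ((M : ℕ) : IsLocalRing.ResidueField ↥A) ≠ 0) (ℓ : ℕ) [Fact ℓ.Prime]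
    (hℓ : (ℓ : Kbar)⁻¹ ∉ A) [Lib.RR.IsFF Kbar (FN M)] [IsAlgClosed (IsLocalRing.ResidueField ↥A)]
    [Lib.RR.IsFF (IsLocalRing.ResidueField ↥A) (Igusa.E (IsLocalRing.ResidueField ↥A) M)]
    (r : Place Kbar (FN M) →
      Place (IsLocalRing.ResidueField ↥A) (Igusa.E (IsLocalRing.ResidueField ↥A) M))
    (hr : IsRedMap (RM A M hM) r)
    (Z : Finset (Place (IsLocalRing.ResidueField ↥A) (Igusa.E (IsLocalRing.ResidueField ↥A) M)))
    (n : ℕ) :
    ∃ 𝔄 : Divisor Kbar (FN M), 0 ≤ 𝔄 ∧ (n : ℤ) ≤ Divisor.degree 𝔄 ∧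
      (∀ τ : GQ, rhoM M τ • 𝔄 = 𝔄) ∧ ∀ P ∈ 𝔄.support, r P ∉ Z := by
  classical
  set jb := Igusa.jb (IsLocalRing.ResidueField ↥A) M with hjb
  -- the values of `j̄` at the points of `Z`
  have hex : ∀ z : Place (IsLocalRing.ResidueField ↥A) (Igusa.E (IsLocalRing.ResidueField ↥A) M), ∃ t : (IsLocalRing.ResidueField ↥A), 0 ≤ z.ord jb →
      (jb = algebraMap (IsLocalRing.ResidueField ↥A) (Igusa.E (IsLocalRing.ResidueField ↥A) M) t ∨ 0 < z.ord (jb - algebraMap (IsLocalRing.ResidueField ↥A) (Igusa.E (IsLocalRing.ResidueField ↥A) M) t)) := by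
    intro z
    by_cases hz : 0 ≤ z.ord jb
    · obtain ⟨t, ht⟩ := RED.exists_eval z hz
      exact ⟨t, fun _ => ht⟩
    · exact ⟨0, fun h => absurd h hz⟩
  choose t ht using hex
  obtain ⟨P, hP, hPn, hPT⟩ := exists_monic_avoid A ℓ hℓ (Z.image t) n
  have hnn : 0 ≤ poleDiv (K := Kbar) (aeval (jF M) P)⁻¹ := Level_poleDiv_nonneg _
  refine ⟨poleDiv (K := Kbar) (aeval (jF M) P)⁻¹, hnn, ?_, ?_, ?_⟩
  · rw [degree_zeros_aeval_jF P hP]
    have h1 : 0 < dedekindPsi M := DegreeAlpha.dedekindPsi_pos M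
    have h2 : n * 1 ≤ P.natDegree * dedekindPsi M := Nat.mul_le_mul hPn h1
    rw [mul_one] at h2
    exact_mod_cast h2
  · intro τ
    rw [smul_poleDiv, smul_inv'', rhoM_smul_aeval_jF_int]
  · intro P₀ hP₀ hZ
    have hpos : 0 < poleDiv (K := Kbar) (aeval (jF M) P)⁻¹ P₀ :=
      lt_of_le_of_ne (hnn P₀) (Ne.symm (Finsupp.mem_support_iff.1 hP₀))
    have h1 := RED.mapDomain_apply_pos r _ (r P₀) (fun a _ => hnn a) rfl hpos
    rw [map_zeros_aeval_jF hM r hr P hP, RED.poleDiv_apply, Place.ord_inv, neg_neg] at h1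
    have h2 : 0 < (r P₀).ord (aeval jb P) := by
      rcases lt_max_iff.1 h1 with h | h
      · exact h
      · exact absurd h (lt_irrefl _)
    have hmap : aeval jb P = aeval jb (P.map (algebraMap ℤ (IsLocalRing.ResidueField ↥A))) := by
      rw [Polynomial.aeval_def, Polynomial.aeval_def, Polynomial.eval₂_map]
      congr 1
      exact RingHom.ext_int _ _
    have hPm : (P.map (algebraMap ℤ (IsLocalRing.ResidueField ↥A))).Monic := hP.map _
    by_cases hz : 0 ≤ (r P₀).ord jb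
    · have hne : aeval (t (r P₀)) P ≠ 0 := hPT _ (Finset.mem_image_of_mem t hZ)
      rcases ht (r P₀) hz with h | h
      · have h3 : aeval jb P = algebraMap (IsLocalRing.ResidueField ↥A) (Igusa.E (IsLocalRing.ResidueField ↥A) M) (aeval (t (r P₀)) P) := by
          rw [h, Polynomial.aeval_def, Polynomial.aeval_def, Polynomial.hom_eval₂]
          congr 1
          exact RingHom.ext_int _ _
        rw [h3, RED.ord_algebraMap] at h2
        exact lt_irrefl _ h2
      · have h3 := ord_aeval_eq_zero (r P₀) jb (t (r P₀)) h (P.map (algebraMap ℤ (IsLocalRing.ResidueField ↥A)))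
          (by rw [Polynomial.eval_map_algebraMap]; exact hne)
        rw [hmap, h3] at h2
        exact lt_irrefl _ h2
    · rw [not_le] at hz
      have h3 := ord_aeval_of_ord_neg (r P₀) jb hz (P.map (algebraMap ℤ (IsLocalRing.ResidueField ↥A))) hPm.ne_zero
      rw [hmap, h3] at h2
      have h4 : ((P.map (algebraMap ℤ (IsLocalRing.ResidueField ↥A))).natDegree : ℤ) * (r P₀).ord jb ≤ 0 :=
        mul_nonpos_of_nonneg_of_nonpos (Int.natCast_nonneg _) hz.le
      exact absurd h2 (not_lt.2 h4)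

end Fermat.Agent.S19
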