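import Fermat.Agent.S19.B.Defs
import Fermat.Agent.DR.Conc.Level
import Fermat.Agent.S37.Semilin
import Fermat.Prelude.Def_ModularCurve_ArithmeticGalois

/-!
# S19 / C: the modular instantiation of `GalRed`.  Basic notation; finite orbits.

`F = FN M = ℚ̄(j(q^d) : d ∣ M) ⊆ ℚ̄((q))`, `Γ = G_ℚ` acting on the coefficients (`rhoM M`),
`R = DR.Conc.RM A M hM` the Gauss reduction datum (`O = ` elements of `Gauss.gRing A`), `k` the residue field of `A`,
`Fb = Igusa.E k M = k(j(q^d) : d ∣ M) ⊆ k((q))`.
-/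

set_option autoImplicit false

namespace Fermat.Agent.S19

open AlgebraicCurve ModularCurve Fermat.Agent.Lib.RR Fermat.Agent.GAL Fermat.Agent.GAL.RED
  Fermat.Agent.GAL.Gauss Fermat.Agent.S24 Fermat.Agent.DR.Conc

/-- The arithmetic Galois action on `FN M`. -/
noncomputable abbrev rhoM (M : ℕ) : GQ →* SemilinearAut Kbar (FN M) :=
  arithmeticGalois (modularFunctionFieldFull M)

theorem coe_rhoM_smul (M : ℕ) (σ : GQ) (x : FN M) :
    ((rhoM M σ • x : FN M) : LaurentSeries Kbar) =
      coeffMap (σ : Kbar →+* Kbar) (x : LaurentSeries Kbar) := rfl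

theorem coeff_rhoM_smul (M : ℕ) (σ : GQ) (x : FN M) (n : ℤ) :
    ((rhoM M σ • x : FN M) : LaurentSeries Kbar).coeff n = σ ((x : LaurentSeries Kbar).coeff n) := rfl

theorem baseAut_rhoM (M : ℕ) (σ : GQ) (a : Kbar) : SemilinearAut.baseAut (rhoM M σ) a = σ a := rfl

theorem Basic_smul_aeval {K F : Type*} [Field K] [Field F] [Algebra K F] (g : SemilinearAut K F)
    (x : F) (hx : g • x = x) (p : Polynomial K)
    (hp : ∀ i, SemilinearAut.baseAut g (p.coeff i) = p.coeff i) :
    g • Polynomial.aeval x p = Polynomial.aeval x p := by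
  rw [Polynomial.aeval_eq_sum_range, Finset.smul_sum]
  refine Finset.sum_congr rfl fun i _ => ?_
  rw [Algebra.smul_def, smul_mul', smul_pow', hx, SemilinearAut.smul_algebraMap, hp]

theorem Basic_smul_aeval_int {K F : Type*} [Field K] [Field F] [Algebra K F]
    (g : SemilinearAut K F) (x : F) (hx : g • x = x) (P : Polynomial ℤ) :
    g • Polynomial.aeval x P = Polynomial.aeval x P := by
  rw [Polynomial.aeval_eq_sum_range, Finset.smul_sum]
  refine Finset.sum_congr rfl fun i _ => ?_
  rw [zsmul_eq_mul, smul_mul', smul_pow', hx, SemilinearAut.smul_def, map_intCast]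

/-- C4a. `j` is invariant (its `q`-expansion is `coeffEmb Kbar jq`, rational coefficients). -/
theorem rhoM_smul_jF (M : ℕ) (σ : GQ) : rhoM M σ • jF M = jF M := by
  apply Subtype.ext
  rw [coe_rhoM_smul]
  exact coeffMap_coeffEmb σ jq

/-- C4b. polynomials in `j` with rational coefficients are invariant. -/
theorem rhoM_smul_aeval_jF (M : ℕ) (σ : GQ) (S : Polynomial ℚ) :
    rhoM M σ • Polynomial.aeval (jF M) (S.map (algebraMap ℚ Kbar)) =
      Polynomial.aeval (jF M) (S.map (algebraMap ℚ Kbar)) := by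
  refine Basic_smul_aeval (rhoM M σ) (jF M) (rhoM_smul_jF M σ) _ fun i => ?_
  rw [Polynomial.coeff_map, baseAut_rhoM, σ.commutes]

/-- C4c. the same for integral coefficients. -/
theorem rhoM_smul_aeval_jF_int (M : ℕ) (σ : GQ) (P : Polynomial ℤ) :
    rhoM M σ • Polynomial.aeval (jF M) P = Polynomial.aeval (jF M) P := by
  exact Basic_smul_aeval_int (rhoM M σ) (jF M) (rhoM_smul_jF M σ) P

theorem Basic_isIntegral_Kbar (inst : Algebra ℚ Kbar) (b : Kbar) : @IsIntegral ℚ Kbar _ _ inst b := by
  obtain rfl : inst = AlgebraicClosure.instAlgebra ℚ := Subsingleton.elim _ _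
  exact (AlgebraicClosure.isAlgebraic ℚ).isIntegral.isIntegral b

/-- C4d. finite orbits on the constants: the conjugates of `b` are roots of `minpoly ℚ b`. -/
theorem orbK_modular (M : ℕ) (b : Kbar) :
    (Set.range fun τ : GQ => SemilinearAut.baseAut (rhoM M τ) b).Finite := by
  have hint : IsIntegral ℚ b := Basic_isIntegral_Kbar inferInstance b
  refine ((minpoly ℚ b).rootSet_finite Kbar).subset ?_
  rintro _ ⟨τ, rfl⟩
  rw [Polynomial.mem_rootSet]
  refine ⟨minpoly.ne_zero hint, ?_⟩
  show Polynomial.aeval (τ b) (minpoly ℚ b) = 0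
  have h1 := Polynomial.aeval_algHom_apply (τ : Kbar →ₐ[ℚ] Kbar) b (minpoly ℚ b)
  rw [minpoly.aeval, map_zero] at h1
  exact h1

/-- C4e. abstract: if `f` has a zero or a pole at `P` and `f` has a finite orbit, then `P` has a finite orbit:
`g • P` is in the support of `divOf (g • f)` (`SemilinearAut.ord_smul`). -/
theorem finite_orbit_place {K F Γ : Type*} [Field K] [Field F] [Algebra K F] [HasPrincipalDivisors K F]
    [Group Γ] (ρ : Γ →* SemilinearAut K F) (P : Place K F) (f : F) (hf : P.ord f ≠ 0)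
    (hfin : (Set.range fun τ : Γ => ρ τ • f).Finite) : (Set.range fun τ : Γ => ρ τ • P).Finite := by
  refine (Set.Finite.biUnion hfin
    (fun f' _ => (divOf (K := K) f').support.finite_toSet)).subset ?_
  rintro _ ⟨τ, rfl⟩
  refine Set.mem_biUnion ⟨τ, rfl⟩ ?_
  rw [Finset.mem_coe, Finsupp.mem_support_iff, divOf_apply, SemilinearAut.ord_smul]
  exact hf

/-- C4f. finite orbits on the places.  If `P.ord j < 0` use `f = j`.  Otherwise there is `a : Kbar` with
`0 < P.ord (j - a)` (the residue field of `P` is `Kbar`; e.g. `Fermat.Agent.Lib.RR.residue_surjective`, or grep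
`exists_sub_ord_pos`-like lemmas in `GAL/RED/CurveBasic.lean`, `S19/Weil/Ev.lean`); use `f = j - a`,
`ρ τ • f = j - τ a` and `orbK_modular`. -/
theorem orbP_modular (M : ℕ) [NeZero M] [Lib.RR.IsFF Kbar (FN M)] (P : Place Kbar (FN M)) :
    (Set.range fun τ : GQ => rhoM M τ • P).Finite := by
  by_cases hneg : P.ord (jF M) < 0
  · refine finite_orbit_place (rhoM M) P (jF M) hneg.ne ?_
    refine (Set.finite_singleton (jF M)).subset ?_
    rintro _ ⟨τ, rfl⟩
    exact rhoM_smul_jF M τ
  · obtain ⟨a, ha⟩ := exists_eval P (not_lt.1 hneg)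
    have hpos : 0 < P.ord (jF M - algebraMap Kbar (FN M) a) := by
      rcases ha with ha | ha
      · exfalso
        apply transcendental_jF M
        rw [ha]
        exact isAlgebraic_algebraMap a
      · exact ha
    refine finite_orbit_place (rhoM M) P (jF M - algebraMap Kbar (FN M) a) hpos.ne' ?_
    refine ((orbK_modular M a).image fun c => jF M - algebraMap Kbar (FN M) c).subset ?_
    rintro _ ⟨τ, rfl⟩
    refine ⟨_, ⟨τ, rfl⟩, ?_⟩
    show _ = rhoM M τ • (jF M - algebraMap Kbar (FN M) a)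
    rw [smul_sub, rhoM_smul_jF, SemilinearAut.smul_algebraMap]

end Fermat.Agent.S19
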