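import Mathlib

/-!
# S19 / C (modular instantiation of `GalRed`), leaf C1 (MATHLIB ONLY): a separating family of linear forms on a
finite dimensional space contains a separating subfamily with `dim` elements.
-/

set_option autoImplicit false

namespace Fermat.Agent.S19

theorem LinAlg_aux {k ι : Type*} [Field k] (n : ℕ) : ∀ (W : Type*) [AddCommGroup W] [Module k W]
    [FiniteDimensional k W] (φ : ι → (W →ₗ[k] k)), (∀ w : W, (∀ i, φ i w = 0) → w = 0) →
    Module.finrank k W = n → ∃ e : Fin n → ι, ∀ w : W, (∀ j, φ (e j) w = 0) → w = 0 := by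
  induction n with
  | zero =>
    intro W _ _ _ φ _ hn
    haveI : Subsingleton W := Module.finrank_zero_iff.1 hn
    exact ⟨Fin.elim0, fun w _ => Subsingleton.elim _ _⟩
  | succ n ih =>
    intro W _ _ _ φ hφ hn
    haveI : Nontrivial W := Module.nontrivial_of_finrank_pos (R := k) (by omega)
    obtain ⟨w₀, hw₀⟩ := exists_ne (0 : W)
    obtain ⟨i₀, hi₀⟩ : ∃ i, φ i w₀ ≠ 0 := by
      by_contra hcon
      push Not at hcon
      exact hw₀ (hφ w₀ hcon)
    have hne : φ i₀ ≠ 0 := by
      intro h0
      apply hi₀
      rw [h0, LinearMap.zero_apply]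
    have hker : Module.finrank k (LinearMap.ker (φ i₀)) = n := by
      have h1 := Module.Dual.finrank_ker_add_one_of_ne_zero (f := φ i₀) hne
      omega
    obtain ⟨e', he'⟩ := ih (LinearMap.ker (φ i₀))
      (fun j => (φ j).comp (LinearMap.ker (φ i₀)).subtype)
      (fun w hw => Subtype.ext (hφ w.1 hw)) hker
    refine ⟨Fin.cons i₀ e', fun w hw => ?_⟩
    have h0 : w ∈ LinearMap.ker (φ i₀) := by
      have h1 := hw 0
      rwa [Fin.cons_zero] at h1
    have h1 := he' ⟨w, h0⟩ fun j => by
      have h2 := hw j.succ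
      rwa [Fin.cons_succ] at h2
    exact congrArg Subtype.val h1

/-- PROOF. Induction on `finrank k W` (generalising `W`): if `W ≠ 0` pick `w ≠ 0` and `i` with `φ i w ≠ 0`;
`W' = ker (φ i)` has dimension one less (`LinearMap.finrank_range_add_finrank_ker`, the range is all of `k`);
apply the induction hypothesis to the restrictions `φ j ∘ W'.subtype`; add `i` (`Fin.cons`).
Alternatively: the span of `Set.range φ` in `Module.Dual k W` is `⊤` (its `dualCoannihilator` is `⊥`), extract a
basis from the spanning set. -/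
theorem exists_separating_subfamily {k W ι : Type*} [Field k] [AddCommGroup W] [Module k W]
    [FiniteDimensional k W] (φ : ι → (W →ₗ[k] k)) (hφ : ∀ w : W, (∀ i, φ i w = 0) → w = 0) :
    ∃ e : Fin (Module.finrank k W) → ι, ∀ w : W, (∀ j, φ (e j) w = 0) → w = 0 :=
  LinAlg_aux _ W φ hφ rfl

end Fermat.Agent.S19
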