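import Fermat.Agent.S19.C.Basic
import Fermat.Agent.S19.C.LinAlg

/-!
# S19 / C, leaf C8: the invariant orthonormal basis of a `G_ℚ`-stable space of functions whose integral elements have
`A`-integral `q`-expansions.

Let `W = R.redSub V ⊆ k((q))`, `n = dim_k W = dim V` (Cartesian).  Choose exponents `e_1, …, e_n` such that
`w ↦ (coeff_{e_j} w)_j` is injective on `W` (C1).  Then `Φ : V → Kbar^n`, `f ↦ (coeff_{e_j} f)_j` is injective:
if `f ≠ 0`, scale it (`RedData.IsCartesian.exists_scale`) to have `c f ∈ O`, `red (c f) ≠ 0`; `c f = iA w`,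
`red (c f) = pA w ∈ W` has the coefficients `residue (c * coeff_{e_j} f)`.  So `Φ` is bijective; `β_i = Φ⁻¹(e_i)`.
* invariance: `σ β_i ∈ V` has the same image under `Φ`;
* integrality: `c β_i ∈ O` with non zero reduction, `= iA w`; the coefficients at the `e_j` are `c δ_ij`, so `c ∈ A`;
  as the reduction is not `0`, some coefficient at an `e_j` is not zero: `residue c ≠ 0`, `c` is a unit of `A`,
  so `β_i = c⁻¹ (c β_i) = iA (c⁻¹ w) ∈ O`, and `coeff_{e_j} (red β_i) = δ_ij`: the reductions are independent;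
* span: `n` independent elements (`RedData.linearIndependent_of_red`, or `Φ`) of `V`, `dim V = n`.
-/

set_option autoImplicit false

namespace Fermat.Agent.S19

open AlgebraicCurve ModularCurve Fermat.Agent.Lib.RR Fermat.Agent.GAL Fermat.Agent.GAL.RED
  Fermat.Agent.GAL.Gauss Fermat.Agent.S24 Fermat.Agent.DR.Conc

variable {A : ValuationSubring Kbar} {M : ℕ} [NeZero M]

theorem Echelon_coeff_aux {k : Type*} [Field k] (E : IntermediateField k (LaurentSeries k)) (c : k)
    (f : E) (n : ℤ) :
    ((algebraMap k E c * f : E) : LaurentSeries k).coeff n = c * (f : LaurentSeries k).coeff n := by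
  have h1 : ((algebraMap k E c * f : E) : LaurentSeries k) = c • (f : LaurentSeries k) := by
    rw [← HahnSeries.C_mul_eq_smul, ← LaurentSeries.algebraMap_apply]
    rfl
  rw [h1, HahnSeries.coeff_smul, smul_eq_mul]

omit [NeZero M] in
theorem Echelon_coeff_smul (c : Kbar) (f : FN M) (n : ℤ) :
    ((algebraMap Kbar (FN M) c * f : FN M) : LaurentSeries Kbar).coeff n =
      c * (f : LaurentSeries Kbar).coeff n :=
  Echelon_coeff_aux _ c f n

omit [NeZero M] in
theorem Echelon_coeff_smul' (c : Kbar) (f : FN M) (n : ℤ) :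
    ((c • f : FN M) : LaurentSeries Kbar).coeff n =
      c * (f : LaurentSeries Kbar).coeff n := by
  rw [Algebra.smul_def, Echelon_coeff_smul]

/-- C8a. description of the reduction of an element with integral `q`-expansion
(`mem_RM_O_iff`, `coe_RM_red`, `Gauss.iA_mem_gRing`, `Gauss.gRes_of_eq_iA`). -/
theorem RM_of_eq_iA (hM : ((M : ℕ) : IsLocalRing.ResidueField ↥A) ≠ 0) (x : FN M)
    (w : LaurentSeries ↥A) (hw : (x : LaurentSeries Kbar) = iA A w) :
    x ∈ (RM A M hM).O ∧ (((RM A M hM).red x : Igusa.E (IsLocalRing.ResidueField ↥A) M) :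
      LaurentSeries (IsLocalRing.ResidueField ↥A)) = pA A w := by
  have hx : (x : LaurentSeries Kbar) ∈ gRing A := by
    rw [hw]
    exact iA_mem_gRing A w
  refine ⟨(mem_RM_O_iff A M hM x).2 hx, ?_⟩
  rw [coe_RM_red A M hM x hx, gRes_of_eq_iA A _ w hw]

/-- the coefficient linear forms. -/
noncomputable def Echelon_form (k : Type) [Field k] (M : ℕ) (m : ℤ) : Igusa.E k M →ₗ[k] k where
  toFun w := (w : LaurentSeries k).coeff m
  map_add' _ _ := rfl
  map_smul' c w := by
    rw [Algebra.smul_def]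
    exact Echelon_coeff_aux _ c w m

/-- C8b. the exponents. (C1 applied to `W = (RM A M hM).redSub V` and the linear forms
`w ↦ (w : LaurentSeries k).coeff m`, `m : ℤ`; `RedData.finite_redSub`; `RM_isCartesian`.) -/
theorem exists_exponents (hM : ((M : ℕ) : IsLocalRing.ResidueField ↥A) ≠ 0)
    (V : Submodule Kbar (FN M)) [Module.Finite Kbar V] :
    ∃ e : Fin (Module.finrank Kbar V) → ℤ, ∀ w ∈ (RM A M hM).redSub V,
      (∀ j, ((w : Igusa.E (IsLocalRing.ResidueField ↥A) M) :
        LaurentSeries (IsLocalRing.ResidueField ↥A)).coeff (e j) = 0) → w = 0 := by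
  have := (RM A M hM).finite_redSub V
  have hdim : Module.finrank (IsLocalRing.ResidueField ↥A) ((RM A M hM).redSub V) =
      Module.finrank Kbar V := RM_isCartesian A M hM V inferInstance
  obtain ⟨e, he⟩ := exists_separating_subfamily
    (fun m : ℤ => (Echelon_form (IsLocalRing.ResidueField ↥A) M m).comp
      ((RM A M hM).redSub V).subtype) (fun w hw => by
        apply Subtype.ext
        apply Subtype.ext
        ext m
        exact hw m)
  refine ⟨fun j => e (Fin.cast hdim.symm j), fun w hw h => ?_⟩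
  have h1 := he ⟨w, hw⟩ (fun j => by
    have h2 := h (Fin.cast hdim j)
    exact h2)
  exact congrArg Subtype.val h1

/-- C8c. the coefficients at the `e_j` separate the elements of `V`. -/
theorem eq_zero_of_coeff_eq_zero (hM : ((M : ℕ) : IsLocalRing.ResidueField ↥A) ≠ 0)
    (V : Submodule Kbar (FN M))
    (hint : ∀ f ∈ V, f ∈ (RM A M hM).O → ∃ w : LaurentSeries ↥A, (f : LaurentSeries Kbar) = iA A w)
    {n : ℕ} (e : Fin n → ℤ) (he : ∀ w ∈ (RM A M hM).redSub V,
      (∀ j, ((w : Igusa.E (IsLocalRing.ResidueField ↥A) M) :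
        LaurentSeries (IsLocalRing.ResidueField ↥A)).coeff (e j) = 0) → w = 0)
    (f : FN M) (hf : f ∈ V) (h0 : ∀ j, (f : LaurentSeries Kbar).coeff (e j) = 0) : f = 0 := by
  by_contra hf0
  obtain ⟨c, hc, hred⟩ := (RM_isCartesian A M hM).exists_scale hf0
  have hf'V : algebraMap Kbar (FN M) c * f ∈ V := by
    rw [← Algebra.smul_def]
    exact V.smul_mem c hf
  have hf'O := (RM A M hM).mem_of_red_ne_zero hred
  obtain ⟨w, hw⟩ := hint _ hf'V hf'O
  have h1 := (RM_of_eq_iA hM _ w hw).2
  apply hred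
  apply he _ ⟨_, hf'V, hf'O, rfl⟩
  intro j
  rw [h1, pA_coeff]
  have h2 : (w.coeff (e j) : Kbar) = 0 := by
    rw [← iA_coeff, ← hw, Echelon_coeff_smul, h0, mul_zero]
  have h3 : w.coeff (e j) = 0 := Subtype.ext h2
  rw [h3, map_zero]

/-- C8d. an element of `V` whose coefficients at the `e_j` are `δ_ij` is integral, and so are the coefficients of its
reduction. -/
theorem integral_of_coeff_eq_single (hM : ((M : ℕ) : IsLocalRing.ResidueField ↥A) ≠ 0)
    (V : Submodule Kbar (FN M))
    (hint : ∀ f ∈ V, f ∈ (RM A M hM).O → ∃ w : LaurentSeries ↥A, (f : LaurentSeries Kbar) = iA A w)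
    {n : ℕ} (e : Fin n → ℤ) (he : ∀ w ∈ (RM A M hM).redSub V,
      (∀ j, ((w : Igusa.E (IsLocalRing.ResidueField ↥A) M) :
        LaurentSeries (IsLocalRing.ResidueField ↥A)).coeff (e j) = 0) → w = 0)
    (i : Fin n) (f : FN M) (hf : f ∈ V)
    (h0 : ∀ j, (f : LaurentSeries Kbar).coeff (e j) = if j = i then 1 else 0) :
    f ∈ (RM A M hM).O ∧ ∀ j, (((RM A M hM).red f : Igusa.E (IsLocalRing.ResidueField ↥A) M) :
        LaurentSeries (IsLocalRing.ResidueField ↥A)).coeff (e j) = if j = i then 1 else 0 := by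
  have hf0 : f ≠ 0 := by
    intro h
    have h1 := h0 i
    rw [h, if_pos rfl] at h1
    exact zero_ne_one h1
  obtain ⟨c, hc, hred⟩ := (RM_isCartesian A M hM).exists_scale hf0
  have hf'V : algebraMap Kbar (FN M) c * f ∈ V := by
    rw [← Algebra.smul_def]
    exact V.smul_mem c hf
  have hf'O := (RM A M hM).mem_of_red_ne_zero hred
  obtain ⟨w, hw⟩ := hint _ hf'V hf'O
  have h1 := (RM_of_eq_iA hM _ w hw).2
  have h2 : ∀ j, (w.coeff (e j) : Kbar) = if j = i then c else 0 := by
    intro j
    rw [← iA_coeff, ← hw, Echelon_coeff_smul, h0]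
    split_ifs <;> simp
  -- the residue of `c` is not zero
  have h3 : IsLocalRing.residue ↥A (w.coeff (e i)) ≠ 0 := by
    intro h4
    apply hred
    apply he _ ⟨_, hf'V, hf'O, rfl⟩
    intro j
    rw [h1, pA_coeff]
    by_cases hj : j = i
    · rw [hj, h4]
    · have h5 : w.coeff (e j) = 0 := Subtype.ext (by rw [h2, if_neg hj]; rfl)
      rw [h5, map_zero]
  have h4 : IsUnit (w.coeff (e i)) := by
    by_contra h5
    exact h3 ((IsLocalRing.residue_eq_zero_iff _).2 ((IsLocalRing.mem_maximalIdeal _).2 h5))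
  obtain ⟨u, hu⟩ := h4
  have hci : ((u : ↥A) : Kbar) = c := by
    rw [hu, h2, if_pos rfl]
  have hw' : (f : LaurentSeries Kbar) = iA A (HahnSeries.C ((u⁻¹ : (↥A)ˣ) : ↥A) * w) := by
    ext m
    rw [iA_coeff, HahnSeries.C_mul_eq_smul, HahnSeries.coeff_smul, smul_eq_mul]
    have h5 : (w.coeff m : Kbar) = c * (f : LaurentSeries Kbar).coeff m := by
      rw [← iA_coeff, ← hw, Echelon_coeff_smul]
    push_cast
    rw [h5, ← hci, ← mul_assoc]
    have h6 : (((u⁻¹ : (↥A)ˣ) : ↥A) : Kbar) * ((u : ↥A) : Kbar) = 1 := by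
      rw [← MulMemClass.coe_mul, Units.inv_mul]
      rfl
    rw [h6, one_mul]
  obtain ⟨h5, h6⟩ := RM_of_eq_iA hM f _ hw'
  refine ⟨h5, fun j => ?_⟩
  rw [h6, pA_coeff]
  have h7 : (HahnSeries.C ((u⁻¹ : (↥A)ˣ) : ↥A) * w).coeff (e j) = if j = i then 1 else 0 := by
    apply Subtype.ext
    rw [← iA_coeff, ← hw', h0]
    split_ifs <;> rfl
  rw [h7]
  split_ifs <;> simp

/-- the coefficient map `V → Kbar^n`. -/
noncomputable def Echelon_Phi (V : Submodule Kbar (FN M)) {n : ℕ} (e : Fin n → ℤ) :
    V →ₗ[Kbar] (Fin n → Kbar) where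
  toFun f j := ((f : FN M) : LaurentSeries Kbar).coeff (e j)
  map_add' _ _ := rfl
  map_smul' c f := by
    funext j
    exact Echelon_coeff_smul' c (f : FN M) (e j)

set_option synthInstance.maxHeartbeats 400000 in
/-- C8. **The invariant orthonormal basis.** -/
theorem exists_invariant_basis_of_integral (hM : ((M : ℕ) : IsLocalRing.ResidueField ↥A) ≠ 0)
    (V : Submodule Kbar (FN M)) [Module.Finite Kbar V]
    (hstab : ∀ (σ : GQ), ∀ f ∈ V, rhoM M σ • f ∈ V)
    (hint : ∀ f ∈ V, f ∈ (RM A M hM).O → ∃ w : LaurentSeries ↥A, (f : LaurentSeries Kbar) = iA A w) :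
    ∃ (n : ℕ) (β : Fin n → FN M), (∀ τ i, rhoM M τ • β i = β i) ∧ (∀ i, β i ∈ (RM A M hM).O) ∧
      LinearIndependent (IsLocalRing.ResidueField ↥A) (fun i => (RM A M hM).red (β i)) ∧
      Submodule.span Kbar (Set.range β) = V := by
  obtain ⟨e, he⟩ := exists_exponents (A := A) hM V
  have hinj : Function.Injective (Echelon_Phi V e) := by
    rw [injective_iff_map_eq_zero]
    intro f hf
    apply Subtype.ext
    exact eq_zero_of_coeff_eq_zero hM V hint e he f f.2 (fun j => congrFun hf j)
  have hsurj : Function.Surjective (Echelon_Phi V e) :=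
    (LinearMap.injective_iff_surjective_of_finrank_eq_finrank (by simp)).1 hinj
  choose β hβ using fun i => hsurj (Pi.single i 1)
  have hβ' : ∀ i j, ((β i : FN M) : LaurentSeries Kbar).coeff (e j) = if j = i then 1 else 0 := by
    intro i j
    have h1 := congrFun (hβ i) j
    rw [Pi.single_apply] at h1
    exact h1
  have hI := fun i => integral_of_coeff_eq_single hM V hint e he i _ (β i).2 (hβ' i)
  refine ⟨_, fun i => (β i : FN M), ?_, fun i => (hI i).1, ?_, ?_⟩
  · intro τ i
    have h1 : rhoM M τ • (β i : FN M) - β i = 0 :=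
      eq_zero_of_coeff_eq_zero hM V hint e he _ (V.sub_mem (hstab τ _ (β i).2) (β i).2) (fun j => by
        have h2 : ((rhoM M τ • (β i : FN M) - β i : FN M) : LaurentSeries Kbar).coeff (e j) =
          ((rhoM M τ • (β i : FN M) : FN M) : LaurentSeries Kbar).coeff (e j) -
            ((β i : FN M) : LaurentSeries Kbar).coeff (e j) := rfl
        rw [h2, coeff_rhoM_smul, hβ']
        split_ifs <;> simp)
    exact sub_eq_zero.1 h1
  · rw [Fintype.linearIndependent_iff]
    intro g hg i
    have h1 := congrArg (Echelon_form (IsLocalRing.ResidueField ↥A) M (e i)) hg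
    rw [map_sum, map_zero] at h1
    simp_rw [map_smul] at h1
    have h2 : ∀ j, Echelon_form (IsLocalRing.ResidueField ↥A) M (e i) ((RM A M hM).red (β j)) =
        if i = j then 1 else 0 := fun j => (hI j).2 i
    simp_rw [h2] at h1
    simpa using h1
  · apply le_antisymm
    · rw [Submodule.span_le]
      rintro _ ⟨i, rfl⟩
      exact (β i).2
    · intro f hf
      have h1 : (⟨f, hf⟩ : V) = ∑ j, Echelon_Phi V e ⟨f, hf⟩ j • β j := by
        apply hinj
        rw [map_sum]
        simp_rw [map_smul, hβ]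
        funext j
        simp [Finset.sum_apply, Pi.single_apply]
      have h2 : f = ∑ j, Echelon_Phi V e ⟨f, hf⟩ j • (β j : FN M) := by
        have h3 := congrArg Subtype.val h1
        simpa using h3
      rw [h2]
      refine Submodule.sum_mem _ (fun j _ => ?_)
      exact (Submodule.span Kbar (Set.range fun i => (β i : FN M))).smul_mem _
        (Submodule.subset_span ⟨j, rfl⟩)

end Fermat.Agent.S19
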