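import Fermat.Agent.S19.C.Denom
import Fermat.Agent.S19.C.Echelon

/-!
# S19 / C, leaf C9: the field `basis` of `GalRed`.
-/

set_option autoImplicit false

namespace Fermat.Agent.S19

open AlgebraicCurve ModularCurve Fermat.Agent.Lib.RR Fermat.Agent.GAL Fermat.Agent.GAL.RED
  Fermat.Agent.GAL.Gauss Fermat.Agent.S24 Fermat.Agent.DR.Conc

section Abs

variable {K F k Fb Γ : Type*} [Field K] [Field F] [Algebra K F] [Field k] [Field Fb] [Algebra k Fb]
  [Group Γ]

/-- `u V` -/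
def mulSub (K : Type*) {F : Type*} [Field K] [Field F] [Algebra K F] (u : F) (V : Submodule K F) :
    Submodule K F := V.map (LinearMap.mulLeft K u)

theorem mem_mulSub {u : F} {V : Submodule K F} {g : F} :
    g ∈ mulSub K u V ↔ ∃ f ∈ V, u * f = g := Iff.rfl

theorem forall_mem_mulSub {u : F} {V : Submodule K F} {p : F → Prop} (h : ∀ f ∈ V, p (u * f)) :
    ∀ g ∈ mulSub K u V, p g := by
  rintro _ ⟨f, hf, rfl⟩
  exact h f hf

instance finite_mulSub (u : F) (V : Submodule K F) [Module.Finite K V] :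
    Module.Finite K (mulSub K u V) := by
  unfold mulSub
  infer_instance

theorem mulSub_stable (ρ : Γ →* SemilinearAut K F) {u : F} (hu : ∀ σ, ρ σ • u = u)
    {V : Submodule K F} (hstab : ∀ σ, ∀ f ∈ V, ρ σ • f ∈ V) :
    ∀ σ, ∀ g ∈ mulSub K u V, ρ σ • g ∈ mulSub K u V := by
  rintro σ _ ⟨f, hf, rfl⟩
  refine ⟨ρ σ • f, hstab σ f hf, ?_⟩
  simp only [LinearMap.mulLeft_apply]
  rw [smul_mul', hu]

theorem basis_of_mulSub (R : RedData K F k Fb) (ρ : Γ →* SemilinearAut K F) {u : F}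
    (hu_inv : ∀ σ, ρ σ • u = u) (hu_red : R.red u ≠ 0) (V : Submodule K F)
    (H : ∃ (n : ℕ) (β : Fin n → F), (∀ τ i, ρ τ • β i = β i) ∧ (∀ i, β i ∈ R.O) ∧
      LinearIndependent k (fun i => R.red (β i)) ∧
      Submodule.span K (Set.range β) = mulSub K u V) :
    ∃ (n : ℕ) (β : Fin n → F), (∀ τ i, ρ τ • β i = β i) ∧ (∀ i, β i ∈ R.O) ∧
      LinearIndependent k (fun i => R.red (β i)) ∧ Submodule.span K (Set.range β) = V := by
  obtain ⟨n, β', h1, h2, h3, h4⟩ := H
  have hu0 : u ≠ 0 := R.ne_zero_of_red_ne_zero hu_red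
  refine ⟨n, fun i => u⁻¹ * β' i, ?_, ?_, ?_, ?_⟩
  · intro τ i
    rw [smul_mul', smul_inv'', hu_inv, h1]
  · intro i
    exact R.O.mul_mem _ _ (R.inv_mem_of_red_ne_zero hu_red) (h2 i)
  · have e1 : (fun i => R.red (u⁻¹ * β' i)) = fun i =>
        LinearMap.mulLeft k (R.red u)⁻¹ (R.red (β' i)) := by
      funext i
      rw [R.red_mul (R.inv_mem_of_red_ne_zero hu_red) (h2 i), R.red_inv]
      rfl
    rw [e1]
    refine h3.map' _ (LinearMap.ker_eq_bot.mpr ?_)
    exact mul_right_injective₀ (inv_ne_zero hu_red)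
  · have e2 : Set.range (fun i => u⁻¹ * β' i) = (LinearMap.mulLeft K u⁻¹) '' Set.range β' := by
      rw [← Set.range_comp]
      rfl
    have e3 : (LinearMap.mulLeft K u⁻¹).comp (LinearMap.mulLeft K u) = LinearMap.id := by
      ext x
      simp [hu0]
    rw [e2, ← Submodule.map_span, h4, mulSub, ← Submodule.map_comp, e3, Submodule.map_id]

theorem L_stable (ρ : Γ →* SemilinearAut K F) (D : Divisor K F) (hD : ∀ τ, ρ τ • D = D) :
    ∀ σ, ∀ f ∈ riemannRochSpace D, ρ σ • f ∈ riemannRochSpace D := by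
  intro σ f hf
  have h := (Fermat.Agent.S37.smul_mem_L_iff (ρ σ) D f).mpr hf
  rwa [hD σ] at h

end Abs

variable {A : ValuationSubring Kbar} {M : ℕ} [NeZero M]

/-- C9a. the statement for an arbitrary stable finite dimensional subspace. -/
theorem exists_invariant_basis (hM : ((M : ℕ) : IsLocalRing.ResidueField ↥A) ≠ 0)
    (V : Submodule Kbar (FN M)) [Module.Finite Kbar V]
    (hstab : ∀ (σ : GQ), ∀ f ∈ V, rhoM M σ • f ∈ V) :
    ∃ (n : ℕ) (β : Fin n → FN M), (∀ τ i, rhoM M τ • β i = β i) ∧ (∀ i, β i ∈ (RM A M hM).O) ∧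
      LinearIndependent (IsLocalRing.ResidueField ↥A) (fun i => (RM A M hM).red (β i)) ∧
      Submodule.span Kbar (Set.range β) = V := by
  obtain ⟨u, hu_inv, hu_red, hu_int⟩ := exists_denominator hM V
  exact basis_of_mulSub (RM A M hM) (rhoM M) hu_inv hu_red V
    (exists_invariant_basis_of_integral hM (mulSub Kbar u V) (mulSub_stable (rhoM M) hu_inv hstab)
      (forall_mem_mulSub (p := fun g => g ∈ (RM A M hM).O →
        ∃ w : LaurentSeries ↥A, (g : LaurentSeries Kbar) = iA A w) hu_int))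

/-- C9. -/
theorem basis_modular (hM : ((M : ℕ) : IsLocalRing.ResidueField ↥A) ≠ 0) [Lib.RR.IsFF Kbar (FN M)]
    (D : Divisor Kbar (FN M)) (hD : ∀ τ : GQ, rhoM M τ • D = D) :
    ∃ (n : ℕ) (β : Fin n → FN M), (∀ τ i, rhoM M τ • β i = β i) ∧ (∀ i, β i ∈ (RM A M hM).O) ∧
      LinearIndependent (IsLocalRing.ResidueField ↥A) (fun i => (RM A M hM).red (β i)) ∧
      Submodule.span Kbar (Set.range β) = riemannRochSpace D :=
  exists_invariant_basis hM (riemannRochSpace D) (L_stable (rhoM M) D hD)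

end Fermat.Agent.S19
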