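import Fermat.Agent.S19.C.Basic
import Fermat.Agent.S19.C.Poly

/-!
# S19 / C, leaves C6, C7: a common invariant denominator.

For a finite dimensional subspace `V` of `FN M` there is a `G_ℚ`-invariant unit `u = S(j)` of the Gauss valuation
ring such that every integral element of `u V` has a `q`-expansion with coefficients in `A`.

(An element of `O` need not have an `A`-integral `q`-expansion: `1 / (ℓ j - 1)`.)
-/

set_option autoImplicit false
set_option linter.unusedSectionVars false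

namespace Fermat.Agent.S19

open AlgebraicCurve ModularCurve Fermat.Agent.Lib.RR Fermat.Agent.GAL Fermat.Agent.GAL.RED
  Fermat.Agent.GAL.Gauss Fermat.Agent.S24 Fermat.Agent.DR.Conc Polynomial

variable (A : ValuationSubring Kbar) (M : ℕ) [NeZero M]

/-- C6a. An integral `K[j]`-combination of a Gauss basis has an `A`-integral `q`-expansion.
PROOF. The sum `y` lies in `modularFunctionFieldFullC Kbar M` (`hz.mem`, `Gauss.adjoin_j_le`, `aeval_mem_adjoin`).
`hz.span_int ⟨y, h⟩` gives `c i ∈ gRing A ∩ K(j)` with `y = ∑ c i * iA (z i)`; `hz.indep` applied to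
`c i - aeval j (p i)` gives `c i = aeval j (p i)`, so `aeval j (p i) ∈ gRing A`; by
`Gauss.coeff_mem_of_aeval_mem` all coefficients of `p i` are in `A`, so `p i = (Q i).map A.subtype`
(`Polynomial.toSubring`, or `Polynomial.lifts_iff_coeff_lifts`), `aeval j (p i) = iA A (evA A (Q i))`
(`Gauss.iA_evA`), `w = ∑ evA A (Q i) * z i`. -/
theorem integral_of_poly_comb {n : ℕ} {z : Fin n → LaurentSeries ↥A} (hz : GaussBasis A M n z)
    (p : Fin n → Kbar[X]) (h : ∑ i, aeval (jqModC Kbar) (p i) * iA A (z i) ∈ gRing A) :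
    ∃ w : LaurentSeries ↥A, ∑ i, aeval (jqModC Kbar) (p i) * iA A (z i) = iA A w := by
  classical
  have hmem : ∑ i, aeval (jqModC Kbar) (p i) * iA A (z i) ∈ modularFunctionFieldFullC Kbar M :=
    sum_mem fun i _ => mul_mem (adjoin_j_le Kbar M (aeval_mem_adjoin Kbar (p i))) (hz.mem i)
  obtain ⟨c, hc, hy⟩ := hz.span_int ⟨_, h⟩ hmem
  have hy' : ∑ i, aeval (jqModC Kbar) (p i) * iA A (z i) =
      ∑ i, (c i : LaurentSeries Kbar) * iA A (z i) := hy
  have h0 := hz.indep (fun i => (c i : LaurentSeries Kbar) - aeval (jqModC Kbar) (p i))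
    (fun i => sub_mem (hc i) (aeval_mem_adjoin Kbar (p i))) (by
      simp only [sub_mul]
      rw [Finset.sum_sub_distrib, hy', sub_self])
  have hci : ∀ i, aeval (jqModC Kbar) (p i) = (c i : LaurentSeries Kbar) := fun i =>
    (sub_eq_zero.1 (congrFun h0 i)).symm
  have hlift : ∀ i, ∃ Q : (↥A)[X], Q.map A.subtype = p i := by
    intro i
    have h1 : p i ∈ Polynomial.lifts A.subtype := by
      rw [Polynomial.lifts_iff_coeff_lifts]
      intro m
      exact ⟨⟨(p i).coeff m, coeff_mem_of_aeval_mem A (p i) (by rw [hci i]; exact (c i).2) m⟩, rfl⟩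
    exact (Polynomial.mem_lifts _).1 h1
  choose Q hQ using hlift
  refine ⟨∑ i, evA A (Q i) * z i, ?_⟩
  rw [map_sum]
  refine Finset.sum_congr rfl fun i _ => ?_
  rw [map_mul, iA_evA, hQ]

/-- C6b. Clearing denominators (this is the `hspan` part of the proof of `RED.gaussRedData_isCartesian`, copy it). -/
theorem exists_poly_comb {n : ℕ} {z : Fin n → LaurentSeries ↥A} (hz : GaussBasis A M n z)
    (f : LaurentSeries Kbar) (hf : f ∈ modularFunctionFieldFullC Kbar M) :
    ∃ (s : Kbar[X]) (p : Fin n → Kbar[X]), s ≠ 0 ∧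
      aeval (jqModC Kbar) s * f = ∑ i, aeval (jqModC Kbar) (p i) * iA A (z i) := by
  classical
  obtain ⟨d, hd, hf'⟩ := hz.span f hf
  have key : ∀ i, ∃ r s : Kbar[X], s ≠ 0 ∧
      aeval (jqModC Kbar) s * d i = aeval (jqModC Kbar) r := by
    intro i
    obtain ⟨r, s, hrs⟩ := (IntermediateField.mem_adjoin_simple_iff Kbar _).mp (hd i)
    by_cases hs : aeval (jqModC Kbar) s = 0
    · refine ⟨0, 1, one_ne_zero, ?_⟩
      rw [hrs, hs, div_zero]; simp
    · refine ⟨r, s, fun h => hs (by rw [h, map_zero]), ?_⟩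
      rw [hrs]; field_simp
  choose r s hs hrs using key
  refine ⟨∏ i, s i, fun i => r i * ∏ j ∈ Finset.univ.erase i, s j,
    Finset.prod_ne_zero_iff.mpr fun i _ => hs i, ?_⟩
  rw [hf', Finset.mul_sum]
  refine Finset.sum_congr rfl fun i _ => ?_
  rw [← Finset.mul_prod_erase Finset.univ s (Finset.mem_univ i), map_mul, map_mul, ← hrs i]
  ring

/-- C6c. A common denominator for a finite dimensional space.
PROOF. `V = span (v_1, …, v_m)` (`Module.Finite` ⟹ `Submodule.fg_top`/`Submodule.FG`); `s_l` for `v_l` by C6b;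
`s = ∏ s_l`.  The set of the `f` with `∃ p, s(j) f = ∑ p_i(j) z_i` is a `Kbar`-subspace containing the `v_l`
(multiply the relation of `v_l` by `∏_{l' ≠ l} s_l'`).  (`Submodule.span_induction`.) -/
theorem exists_common_denominator {n : ℕ} {z : Fin n → LaurentSeries ↥A} (hz : GaussBasis A M n z)
    (V : Submodule Kbar (LaurentSeries Kbar)) [Module.Finite Kbar V]
    (hV : ∀ f ∈ V, f ∈ modularFunctionFieldFullC Kbar M) :
    ∃ s : Kbar[X], s ≠ 0 ∧ ∀ f ∈ V, ∃ p : Fin n → Kbar[X],
      aeval (jqModC Kbar) s * f = ∑ i, aeval (jqModC Kbar) (p i) * iA A (z i) := by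
  classical
  obtain ⟨T, hT⟩ : V.FG := (Submodule.fg_top V).1 (Module.Finite.fg_top (R := Kbar) (M := V))
  have hTV : ∀ v ∈ T, v ∈ V := fun v hv => hT ▸ Submodule.subset_span hv
  have key : ∀ v : LaurentSeries Kbar, ∃ (s : Kbar[X]), s ≠ 0 ∧ (v ∈ T → ∃ p : Fin n → Kbar[X],
      aeval (jqModC Kbar) s * v = ∑ i, aeval (jqModC Kbar) (p i) * iA A (z i)) := by
    intro v
    by_cases hv : v ∈ T
    · obtain ⟨s, p, hs, hp⟩ := exists_poly_comb A M hz v (hV v (hTV v hv))
      exact ⟨s, hs, fun _ => ⟨p, hp⟩⟩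
    · exact ⟨1, one_ne_zero, fun h => absurd h hv⟩
  choose s hs hp using key
  refine ⟨∏ v ∈ T, s v, Finset.prod_ne_zero_iff.mpr fun v _ => hs v, fun f hf => ?_⟩
  rw [← hT] at hf
  induction hf using Submodule.span_induction with
  | mem v hv =>
    obtain ⟨p, hp'⟩ := hp v hv
    refine ⟨fun i => (∏ w ∈ T.erase v, s w) * p i, ?_⟩
    rw [← Finset.mul_prod_erase T s hv, map_mul, mul_right_comm, hp', Finset.sum_mul]
    refine Finset.sum_congr rfl fun i _ => ?_
    rw [map_mul]
    ring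
  | zero => exact ⟨0, by simp⟩
  | add x y _ _ hx hy =>
    obtain ⟨p, hp'⟩ := hx
    obtain ⟨p', hp''⟩ := hy
    refine ⟨p + p', ?_⟩
    rw [mul_add, hp', hp'', ← Finset.sum_add_distrib]
    refine Finset.sum_congr rfl fun i _ => ?_
    rw [Pi.add_apply, map_add, add_mul]
  | smul a x _ hx =>
    obtain ⟨p, hp'⟩ := hx
    refine ⟨fun i => C a * p i, ?_⟩
    rw [← HahnSeries.C_mul_eq_smul, mul_left_comm, hp', Finset.mul_sum]
    refine Finset.sum_congr rfl fun i _ => ?_
    rw [map_mul, aeval_C, algebraMap_eq_C, mul_assoc]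

variable {A M}

omit [NeZero M] in
/-- the `q`-expansion of a polynomial in `j`. -/
theorem Denom_coe_aeval_jF (P : Kbar[X]) :
    ((aeval (jF M) P : FN M) : LaurentSeries Kbar) = aeval (jqModC Kbar) P := by
  have h1 := Polynomial.aeval_algHom_apply (IntermediateField.val (modularFunctionFieldBar M)) (jF M) P
  have h2 : (IntermediateField.val (modularFunctionFieldBar M)) (jF M) = jqModC Kbar :=
    Igusa.LevelDeg_coeffEmb_jq
  rw [h2] at h1
  exact h1.symm

/-- the inclusion `FN M → ℚ̄((q))`, linear for the coefficientwise module structure of `LaurentSeries`. -/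
noncomputable def Denom_val (M : ℕ) : FN M →ₗ[Kbar] LaurentSeries Kbar :=
  { toFun := fun g => (g : LaurentSeries Kbar)
    map_add' := fun _ _ => rfl
    map_smul' := fun c g => by
      have h1 : ((c • g : FN M) : LaurentSeries Kbar) =
          algebraMap Kbar (LaurentSeries Kbar) c * (g : LaurentSeries Kbar) := by
        rw [Algebra.smul_def]; rfl
      rw [h1, Gauss.algebraMap_eq_C, HahnSeries.C_mul_eq_smul]
      rfl }

/-- C7a. `S(j)` for `S ∈ ℚ[X]` with `A`-integral coefficients, one of them `1`, is a unit of the Gauss valuation ring.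
PROOF. `S.map _ = Q.map A.subtype` with `Q : A[X]`, `Q.map (residue A) ≠ 0` (a coefficient is `1`);
the `q`-expansion of `aeval (jF M) (S.map _)` is `aeval (jqModC Kbar) (S.map _) = iA A (evA A Q)` (`Gauss.iA_evA`;
`((jF M : FN M) : LaurentSeries Kbar) = jqModC Kbar`: see the proof of `DR.Conc.RM_red_jF`,
`Igusa.LevelDeg_coeffEmb_jq`); `coe_RM_red`, `gRes_of_eq_iA`, `Gauss.pA_evA_ne_zero`. -/
theorem red_aeval_jF_ne_zero (hM : ((M : ℕ) : IsLocalRing.ResidueField ↥A) ≠ 0) (S : ℚ[X])
    (hS : ∀ i, algebraMap ℚ Kbar (S.coeff i) ∈ A) (hS1 : ∃ i, S.coeff i = 1) :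
    (RM A M hM).red (aeval (jF M) (S.map (algebraMap ℚ Kbar))) ≠ 0 := by
  obtain ⟨Q, hQ⟩ : ∃ Q : (↥A)[X], Q.map A.subtype = S.map (algebraMap ℚ Kbar) := by
    have : S.map (algebraMap ℚ Kbar) ∈ Polynomial.lifts A.subtype := by
      rw [Polynomial.lifts_iff_coeff_lifts]
      intro i
      rw [coeff_map]
      exact ⟨⟨_, hS i⟩, rfl⟩
    exact (Polynomial.mem_lifts _).mp this
  have hQres : Q.map (IsLocalRing.residue ↥A) ≠ 0 := by
    obtain ⟨i, hi⟩ := hS1
    intro h0
    have h1 : (Q.coeff i : Kbar) = 1 := by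
      have := congrArg (fun P : Kbar[X] => P.coeff i) hQ
      simp only [coeff_map, hi, map_one] at this
      exact this
    have h2 : Q.coeff i = 1 := Subtype.ext h1
    have h3 := congrArg (fun P => P.coeff i) h0
    simp only [coeff_map, h2, map_one, coeff_zero] at h3
    exact one_ne_zero h3
  have hz : ((aeval (jF M) (S.map (algebraMap ℚ Kbar)) : FN M) : LaurentSeries Kbar) =
      iA A (evA A Q) := by
    rw [Denom_coe_aeval_jF, iA_evA, hQ]
  have hx : ((aeval (jF M) (S.map (algebraMap ℚ Kbar)) : FN M) : LaurentSeries Kbar) ∈ gRing A := by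
    rw [hz]
    exact iA_mem_gRing A _
  intro h0
  have h1 := coe_RM_red A M hM _ hx
  rw [h0, gRes_of_eq_iA A _ _ hz] at h1
  exact pA_evA_ne_zero A Q hQres h1.symm

/-- C7. **The invariant denominator.**
PROOF. `Gauss.exists_gaussBasis A M hM`; C6c for the image of `V` in `LaurentSeries Kbar`
(`V.map (IntermediateField.val _).toLinearMap`; `Igusa.modularFunctionFieldBar_eq M`) gives `s`;
`exists_rat_multiple A s` gives `S` with `s ∣ S.map _`; `u = aeval (jF M) (S.map _)`; invariance: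
`rhoM_smul_aeval_jF`; unit: C7a; `u f = ∑ (t p_i)(j) z_i` where `S.map _ = s * t`; `mem_RM_O_iff`; C6a. -/
theorem exists_denominator (hM : ((M : ℕ) : IsLocalRing.ResidueField ↥A) ≠ 0)
    (V : Submodule Kbar (FN M)) [Module.Finite Kbar V] :
    ∃ u : FN M, (∀ σ : GQ, rhoM M σ • u = u) ∧ (RM A M hM).red u ≠ 0 ∧
      ∀ f ∈ V, u * f ∈ (RM A M hM).O →
        ∃ w : LaurentSeries ↥A, ((u * f : FN M) : LaurentSeries Kbar) = iA A w := by
  obtain ⟨n, z, -, hz, -, -⟩ := Gauss.exists_gaussBasis A M hM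
  have hV' : ∀ f ∈ V.map (Denom_val M),
      f ∈ modularFunctionFieldFullC Kbar M := by
    rintro _ ⟨g, -, rfl⟩
    rw [← Igusa.modularFunctionFieldBar_eq M]
    exact g.2
  obtain ⟨s, hs0, hs⟩ := exists_common_denominator A M hz
    (V.map (Denom_val M)) hV'
  obtain ⟨S, ⟨t, ht⟩, hS, hS1⟩ := exists_rat_multiple A s hs0
  refine ⟨aeval (jF M) (S.map (algebraMap ℚ Kbar)), fun σ => rhoM_smul_aeval_jF M σ S,
    red_aeval_jF_ne_zero hM S hS hS1, fun f hf hO => ?_⟩
  obtain ⟨p, hp⟩ := hs (f : LaurentSeries Kbar) ⟨f, hf, rfl⟩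
  have hcoe : ((aeval (jF M) (S.map (algebraMap ℚ Kbar)) * f : FN M) : LaurentSeries Kbar) =
      ∑ i, aeval (jqModC Kbar) (t * p i) * iA A (z i) := by
    have h1 : ((aeval (jF M) (S.map (algebraMap ℚ Kbar)) * f : FN M) : LaurentSeries Kbar) =
        ((aeval (jF M) (S.map (algebraMap ℚ Kbar)) : FN M) : LaurentSeries Kbar) *
          (f : LaurentSeries Kbar) := rfl
    rw [h1, Denom_coe_aeval_jF, ht, map_mul, mul_comm (aeval (jqModC Kbar) s), mul_assoc, hp,
      Finset.mul_sum]
    refine Finset.sum_congr rfl fun i _ => ?_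
    rw [map_mul, mul_assoc]
  rw [mem_RM_O_iff, hcoe] at hO
  rw [hcoe]
  exact integral_of_poly_comb A M hz (fun i => t * p i) hO

end Fermat.Agent.S19
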