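import Fermat.Agent.S19.C.Basis
import Fermat.Agent.S19.C.AuxDiv
import Fermat.Agent.S19.M.Conc

/-!
# S19 / C: OUTPUT: `GalRed` for the modular function fields of level prime to `ℓ` with good reduction.
-/

set_option autoImplicit false

namespace Fermat.Agent.S19

open AlgebraicCurve ModularCurve Fermat.Agent.Lib.RR Fermat.Agent.GAL Fermat.Agent.GAL.RED
  Fermat.Agent.GAL.Gauss Fermat.Agent.S24 Fermat.Agent.DR.Conc

variable {A : ValuationSubring Kbar} {M : ℕ} [NeZero M]

theorem exists_galRed (hM : ((M : ℕ) : IsLocalRing.ResidueField ↥A) ≠ 0) (ℓ : ℕ) [Fact ℓ.Prime]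
    (hℓ : (ℓ : Kbar)⁻¹ ∉ A) [Lib.RR.IsFF Kbar (S24.FN M)] [IsAlgClosed (IsLocalRing.ResidueField ↥A)]
    [Lib.RR.IsFF (IsLocalRing.ResidueField ↥A) (Igusa.E (IsLocalRing.ResidueField ↥A) M)]
    (hg : GoodRed A M) :
    ∃ r : Place Kbar (S24.FN M) →
        Place (IsLocalRing.ResidueField ↥A) (Igusa.E (IsLocalRing.ResidueField ↥A) M),
      GalRed (RM A M hM) r (rhoM M) := by
  obtain ⟨r, hr⟩ := RED.exists_isRedMap (RM A M hM) (RM_isCartesian A M hM) hg
  exact ⟨r, { isRedMap := hr
              cartesian := RM_isCartesian A M hM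
              orbK := orbK_rhoN M
              orbP := orbP_rhoN M
              basis := basis_modular hM
              aux := aux_modular hM ℓ hℓ r hr }⟩

end Fermat.Agent.S19
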